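import Mathlib
import Fermat.Agent.RED.Interface4
import Fermat.Agent.RED.DESC.NumberFieldDVR27
import Fermat.Agent.T1.LocModel46.NumField

/-!
# T1A brick G9-0 HUB-INST (helper98), part (1): the rings `AK A K = A ∩ K` for `K ≤ L`

`A : ValuationSubring ℚ̄`, `K ≤ L` intermediate fields of `ℚ̄/ℚ`.

* `inclAK A h : AK A K →+* AK A L` the inclusion, injective, a local homomorphism;
* `algAK A h : Algebra (AK A K) (AK A L)`, `algAKL A h : Algebra (AK A K) L`,
  `algKL h : Algebra K L` (abbrevs, to be used with `letI`), and the scalar towers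
  `(AK A K) (AK A L) L`, `(AK A K) K L`;
* `IsFractionRing (AK A L) L`, `IsDomain` are Mathlib instances; `IsDiscreteValuationRing (AK A L)`
  by lemma (`isDVR_AK`);
* `jL L : L →+* ℚ̄` and the norm criterion `‖ι (jL x)‖ ≤ 1 ↔ x ∈ AK (padicPlace ℓ) L`.
-/

set_option autoImplicit false
set_option linter.style.haveILetI false

noncomputable section

namespace Fermat.Agent.T1.HubInst98

open Fermat.Agent.RED.Interface4 Fermat.Agent.RED.DESC.NumberFieldDVR27

variable (A : ValuationSubring Qbar) {K L : IntermediateField ℚ Qbar}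

/-- The inclusion `A ∩ K → A ∩ L` for `K ≤ L`. -/
def inclAK (h : K ≤ L) : AK A K →+* AK A L :=
  ((IntermediateField.inclusion h : K →+* L).comp (AK A K).subtype).codRestrict (AK A L)
    (fun x => (AK_mono_mem A K h x).mpr x.2)

@[simp] theorem coe_inclAK (h : K ≤ L) (x : AK A K) :
    ((inclAK A h x : AK A L) : L) = IntermediateField.inclusion h (x : K) := rfl

theorem coe_coe_inclAK (h : K ≤ L) (x : AK A K) :
    (((inclAK A h x : AK A L) : L) : Qbar) = ((x : K) : Qbar) := rfl

theorem inclAK_injective (h : K ≤ L) : Function.Injective (inclAK A h) := by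
  intro x y hxy
  apply Subtype.ext
  apply Subtype.ext
  have := congrArg (fun z : AK A L => (((z : L) : Qbar))) hxy
  exact this

theorem isLocalHom_inclAK (h : K ≤ L) : IsLocalHom (inclAK A h) := by
  refine ⟨fun x hx => ?_⟩
  -- a unit of `A ∩ L` lying in `K` has its inverse in `A ∩ K`
  have hx0 : (x : K) ≠ 0 := by
    intro h0
    have : inclAK A h x = 0 := by
      apply Subtype.ext; apply Subtype.ext
      rw [coe_coe_inclAK, h0]; rfl
    rw [this] at hx
    exact not_isUnit_zero hx
  obtain ⟨u, hu⟩ := hx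
  have hinv : ((x : K)⁻¹ : K) ∈ AK A K := by
    rw [mem_AK_iff]
    have h1 : (((u⁻¹ : (AK A L)ˣ) : AK A L) : L) = ((inclAK A h x : AK A L) : L)⁻¹ := by
      have h2 : ((u : AK A L) : L) * (((u⁻¹ : (AK A L)ˣ) : AK A L) : L) = 1 := by
        have := congrArg (fun z : AK A L => (z : L)) u.mul_inv
        exact this
      rw [hu] at h2
      exact eq_inv_of_mul_eq_one_right h2
    have h3 : ((((u⁻¹ : (AK A L)ˣ) : AK A L) : L) : Qbar) ∈ A :=
      (mem_AK_iff A L _).mp ((u⁻¹ : (AK A L)ˣ) : AK A L).2
    rw [h1] at h3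
    simpa using h3
  refine ⟨⟨x, ⟨(x : K)⁻¹, hinv⟩, ?_, ?_⟩, rfl⟩
  · apply Subtype.ext
    simp [hx0]
  · apply Subtype.ext
    simp [hx0]

/-- `Algebra (A ∩ K) (A ∩ L)` (use with `letI`). -/
abbrev algAK (h : K ≤ L) : Algebra (AK A K) (AK A L) := (inclAK A h).toAlgebra

/-- `Algebra K L` for `K ≤ L` (use with `letI`). -/
abbrev algKL (h : K ≤ L) : Algebra K L := (IntermediateField.inclusion h : K →+* L).toAlgebra

/-- `Algebra (A ∩ K) L` (use with `letI`). -/
abbrev algAKL (h : K ≤ L) : Algebra (AK A K) L :=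
  ((algebraMap (AK A L) L).comp (inclAK A h)).toAlgebra

theorem isScalarTower_AK (h : K ≤ L) :
    letI := algAK A h
    letI := algAKL A h
    IsScalarTower (AK A K) (AK A L) L := by
  letI := algAK A h
  letI := algAKL A h
  exact IsScalarTower.of_algebraMap_eq' rfl

theorem isScalarTower_AK_K (h : K ≤ L) :
    letI := algKL h
    letI := algAKL A h
    IsScalarTower (AK A K) K L := by
  letI := algKL h
  letI := algAKL A h
  exact IsScalarTower.of_algebraMap_eq' rfl

theorem algebraMap_algAKL_apply (h : K ≤ L) (x : AK A K) :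
    letI := algAKL A h
    algebraMap (AK A K) L x = IntermediateField.inclusion h (x : K) := rfl

theorem algebraMap_algAK_apply (h : K ≤ L) (x : AK A K) :
    letI := algAK A h
    algebraMap (AK A K) (AK A L) x = inclAK A h x := rfl

theorem inclAK_refl (x : AK A K) : inclAK A (le_refl K) x = x := by
  apply Subtype.ext; apply Subtype.ext; rfl

theorem inclAK_trans {M : IntermediateField ℚ Qbar} (h : K ≤ L) (h' : L ≤ M) (x : AK A K) :
    inclAK A h' (inclAK A h x) = inclAK A (h.trans h') x := by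
  apply Subtype.ext; apply Subtype.ext; rfl

/-- `IsFractionRing (A ∩ L) L` is a Mathlib instance. -/
example : IsFractionRing (AK A L) L := inferInstance

example : IsDomain (AK A L) := inferInstance

/-- `A ∩ L` is a DVR when `A` lies over a prime `ℓ` and `L` is a number field. -/
theorem isDVR_AK {ℓ : ℕ} (hℓ : ℓ ≠ 0) (hA : A.LiesOverPrime ℓ) (L : IntermediateField ℚ Qbar)
    [FiniteDimensional ℚ L] : IsDiscreteValuationRing (AK A L) :=
  isDiscreteValuationRing_AK A L hℓ hA

/-- The embedding `L → ℚ̄`. -/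
def jL (L : IntermediateField ℚ Qbar) : L →+* Qbar := algebraMap L Qbar

@[simp] theorem jL_apply (x : L) : jL L x = (x : Qbar) := rfl

theorem jL_injective : Function.Injective (jL L) := Subtype.val_injective

theorem jL_mem_iff (x : L) : jL L x ∈ A ↔ x ∈ AK A L := (mem_AK_iff A L x).symm

theorem jL_inclusion (h : K ≤ L) (x : K) : jL L (IntermediateField.inclusion h x) = jL K x := rfl

section Padic

variable (ℓ : ℕ) [Fact ℓ.Prime]

/-- Norm criterion for `A ∩ L`, `A = padicPlace ℓ`. -/
theorem norm_iota_jL_le_one_iff (x : L) :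
    ‖padicEmbedding ℓ (jL L x)‖ ≤ 1 ↔ x ∈ AK (padicPlace ℓ) L := by
  rw [← jL_mem_iff]
  exact (Fermat.Agent.T1.LocModel46.mem_place_iff_norm ℓ).symm

end Padic

end Fermat.Agent.T1.HubInst98
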