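import Mathlib
import Fermat.Agent.T1.HubInst98.Incl
import Fermat.Agent.T1.LocModel46.Basic

/-!
# T1A brick G9-0 HUB-INST (helper98), part (2): the Galois action on `A ∩ L`

`σ : ℚ̄ ≃ₐ[ℚ] ℚ̄` preserving `A` (`Preserves A σ : ∀ x, σ x ∈ A ↔ x ∈ A`), `L/ℚ` normal.

* `resL L σ : L ≃ₐ[ℚ] L` (`AlgEquiv.restrictNormal`), `jL_resL`, `resL_one`, `resL_mul`;
* `resO A L σ hσ : AK A L ≃+* AK A L`, a local hom, `resO_one`, `resO_mul`;
* semilinearity over `K ≤ L` (`resO_inclAK`, `resO_smul`), `resO = id` if `σ` fixes `L` pointwise;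
* `preserves_localGaloisToGlobal`: `σ = localGaloisToGlobal ℓ τ` preserves `padicPlace ℓ`.
-/

set_option autoImplicit false
set_option linter.style.haveILetI false

noncomputable section

namespace Fermat.Agent.T1.HubInst98

open Fermat.Agent.RED.Interface4 Fermat.Agent.RED.DESC.NumberFieldDVR27
open scoped Pointwise

variable (A : ValuationSubring Qbar)

/-- `σ` preserves the valuation ring `A`. -/
def Preserves (σ : Qbar ≃ₐ[ℚ] Qbar) : Prop := ∀ x : Qbar, σ x ∈ A ↔ x ∈ A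

variable {A}

theorem Preserves.one : Preserves A 1 := fun _ => Iff.rfl

theorem Preserves.mul {σ τ : Qbar ≃ₐ[ℚ] Qbar} (hσ : Preserves A σ) (hτ : Preserves A τ) :
    Preserves A (σ * τ) := fun x => by
  rw [AlgEquiv.mul_apply, hσ, hτ]

theorem Preserves.symm {σ : Qbar ≃ₐ[ℚ] Qbar} (hσ : Preserves A σ) : Preserves A σ.symm :=
  fun x => by
    rw [← hσ (σ.symm x), AlgEquiv.apply_symm_apply]

theorem Preserves.inv {σ : Qbar ≃ₐ[ℚ] Qbar} (hσ : Preserves A σ) : Preserves A σ⁻¹ := hσ.symm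

theorem preserves_of_mem_decomposition {τ : Qbar ≃ₐ[ℚ] Qbar}
    (hτ : τ ∈ A.decompositionSubgroup ℚ) : Preserves A τ := by
  intro x
  have h1 : τ • A = A := MulAction.mem_stabilizer_iff.1 hτ
  constructor
  · intro hx
    have h2 : τ x ∈ τ • A := h1.symm ▸ hx
    rw [← AlgEquiv.smul_def, ValuationSubring.smul_mem_pointwise_smul_iff] at h2
    exact h2
  · intro hx
    have h2 : τ • x ∈ τ • A := ValuationSubring.smul_mem_pointwise_smul τ x A hx
    rw [h1] at h2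
    exact h2

variable (L : IntermediateField ℚ Qbar) [Normal ℚ L]

/-- The restriction of `σ` to the normal subfield `L`. -/
def resL (σ : Qbar ≃ₐ[ℚ] Qbar) : L ≃ₐ[ℚ] L := σ.restrictNormal L

theorem jL_resL (σ : Qbar ≃ₐ[ℚ] Qbar) (x : L) : jL L (resL L σ x) = σ (jL L x) :=
  AlgEquiv.restrictNormal_commutes σ L x

theorem coe_resL (σ : Qbar ≃ₐ[ℚ] Qbar) (x : L) : ((resL L σ x : L) : Qbar) = σ (x : Qbar) :=
  jL_resL L σ x

theorem resL_one : resL L 1 = 1 :=
  map_one (AlgEquiv.restrictNormalHom (F := ℚ) (K₁ := Qbar) L)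

theorem resL_mul (σ τ : Qbar ≃ₐ[ℚ] Qbar) : resL L (σ * τ) = resL L σ * resL L τ :=
  map_mul (AlgEquiv.restrictNormalHom (F := ℚ) (K₁ := Qbar) L) σ τ

theorem resL_mul_apply (σ τ : Qbar ≃ₐ[ℚ] Qbar) (x : L) :
    resL L (σ * τ) x = resL L σ (resL L τ x) := by
  rw [resL_mul]; rfl

theorem resL_symm_apply (σ : Qbar ≃ₐ[ℚ] Qbar) (x : L) :
    (resL L σ).symm x = resL L σ.symm x := by
  apply (resL L σ).injective
  rw [AlgEquiv.apply_symm_apply]
  apply jL_injective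
  rw [jL_resL, jL_resL, AlgEquiv.apply_symm_apply]

theorem resL_eq_self_of_fixes {σ : Qbar ≃ₐ[ℚ] Qbar} (h : ∀ x ∈ L, σ x = x) (x : L) :
    resL L σ x = x := by
  apply jL_injective
  rw [jL_resL]
  exact h _ x.2

variable (A)

theorem resL_mem_AK_iff {σ : Qbar ≃ₐ[ℚ] Qbar} (hσ : Preserves A σ) (x : L) :
    resL L σ x ∈ AK A L ↔ x ∈ AK A L := by
  rw [← jL_mem_iff, ← jL_mem_iff, jL_resL, hσ]

/-- The restriction of `σ` to the valuation ring `A ∩ L`. -/
def resO (σ : Qbar ≃ₐ[ℚ] Qbar) (hσ : Preserves A σ) : AK A L ≃+* AK A L where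
  toFun x := ⟨resL L σ x, (resL_mem_AK_iff A L hσ x).mpr x.2⟩
  invFun x := ⟨(resL L σ).symm x, by
    rw [← resL_mem_AK_iff A L hσ, AlgEquiv.apply_symm_apply]; exact x.2⟩
  left_inv x := Subtype.ext ((resL L σ).symm_apply_apply x)
  right_inv x := Subtype.ext ((resL L σ).apply_symm_apply x)
  map_mul' x y := Subtype.ext (map_mul (resL L σ) (x : L) (y : L))
  map_add' x y := Subtype.ext (map_add (resL L σ) (x : L) (y : L))

@[simp] theorem coe_resO (σ : Qbar ≃ₐ[ℚ] Qbar) (hσ : Preserves A σ) (x : AK A L) :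
    ((resO A L σ hσ x : AK A L) : L) = resL L σ (x : L) := rfl

theorem coe_coe_resO (σ : Qbar ≃ₐ[ℚ] Qbar) (hσ : Preserves A σ) (x : AK A L) :
    (((resO A L σ hσ x : AK A L) : L) : Qbar) = σ ((x : L) : Qbar) :=
  coe_resL L σ x

theorem coe_resO_symm (σ : Qbar ≃ₐ[ℚ] Qbar) (hσ : Preserves A σ) (x : AK A L) :
    (((resO A L σ hσ).symm x : AK A L) : L) = (resL L σ).symm (x : L) := rfl

omit [Normal ℚ L] in
theorem resO_ext {f g : AK A L → AK A L}
    (h : ∀ x, (((f x : AK A L) : L) : Qbar) = (((g x : AK A L) : L) : Qbar)) : f = g :=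
  funext fun x => Subtype.ext (Subtype.ext (h x))

instance isLocalHom_resO (σ : Qbar ≃ₐ[ℚ] Qbar) (hσ : Preserves A σ) :
    IsLocalHom (resO A L σ hσ) := inferInstance

theorem resO_one : resO A L 1 Preserves.one = RingEquiv.refl (AK A L) := by
  apply RingEquiv.ext
  intro x
  apply Subtype.ext
  rw [coe_resO, resL_one]
  rfl

theorem resO_mul (σ τ : Qbar ≃ₐ[ℚ] Qbar) (hσ : Preserves A σ) (hτ : Preserves A τ) :
    resO A L (σ * τ) (hσ.mul hτ) = (resO A L τ hτ).trans (resO A L σ hσ) := by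
  apply RingEquiv.ext
  intro x
  apply Subtype.ext
  rw [coe_resO, resL_mul_apply]
  rfl

theorem resO_mul_apply (σ τ : Qbar ≃ₐ[ℚ] Qbar) (hσ : Preserves A σ) (hτ : Preserves A τ)
    (x : AK A L) :
    resO A L (σ * τ) (hσ.mul hτ) x = resO A L σ hσ (resO A L τ hτ x) := by
  rw [resO_mul A L σ τ hσ hτ]; rfl

theorem resO_eq_refl_of_fixes {σ : Qbar ≃ₐ[ℚ] Qbar} (hσ : Preserves A σ)
    (h : ∀ x ∈ L, σ x = x) : resO A L σ hσ = RingEquiv.refl (AK A L) := by
  apply RingEquiv.ext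
  intro x
  apply Subtype.ext
  rw [coe_resO, resL_eq_self_of_fixes L h]
  rfl

/-! ### Compatibility for `K ≤ L`, both normal -/

section Tower

variable {K : IntermediateField ℚ Qbar} [Normal ℚ K] {L}

theorem resL_inclusion (h : K ≤ L) (σ : Qbar ≃ₐ[ℚ] Qbar) (x : K) :
    resL L σ (IntermediateField.inclusion h x) = IntermediateField.inclusion h (resL K σ x) := by
  apply jL_injective
  rw [jL_resL, jL_inclusion, jL_inclusion, jL_resL]

theorem resO_inclAK (h : K ≤ L) (σ : Qbar ≃ₐ[ℚ] Qbar) (hσ : Preserves A σ) (w : AK A K) :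
    resO A L σ hσ (inclAK A h w) = inclAK A h (resO A K σ hσ w) := by
  apply Subtype.ext
  rw [coe_resO, coe_inclAK, coe_inclAK, coe_resO]
  exact resL_inclusion h σ (w : K)

/-- **Semilinearity** of `resO` on `A ∩ L` over `resO` on `A ∩ K`. -/
theorem resO_smul (h : K ≤ L) (σ : Qbar ≃ₐ[ℚ] Qbar) (hσ : Preserves A σ) (w : AK A K)
    (a : AK A L) :
    letI := algAK A h
    resO A L σ hσ (w • a) = (resO A K σ hσ w) • resO A L σ hσ a := by
  letI := algAK A h
  rw [Algebra.smul_def, Algebra.smul_def, map_mul]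
  congr 1
  exact resO_inclAK A h σ hσ w

/-- Semilinearity of `resL` on `L` over `resO` on `A ∩ K`. -/
theorem resL_smul (h : K ≤ L) (σ : Qbar ≃ₐ[ℚ] Qbar) (hσ : Preserves A σ) (w : AK A K)
    (a : L) :
    letI := algAKL A h
    resL L σ (w • a) = (resO A K σ hσ w) • resL L σ a := by
  letI := algAKL A h
  rw [Algebra.smul_def, Algebra.smul_def, map_mul]
  congr 1
  exact resL_inclusion h σ (w : K)

end Tower

/-! ### The local Galois group -/

section Padic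

variable (ℓ : ℕ) [Fact ℓ.Prime]

theorem preserves_localGaloisToGlobal (τ : PadicAlgCl ℓ ≃ₐ[ℚ_[ℓ]] PadicAlgCl ℓ) :
    Preserves (padicPlace ℓ) (localGaloisToGlobal ℓ τ) :=
  fun x => Fermat.Agent.T1.LocModel46.res_mem_iff ℓ τ x

/-- `resO` for the local Galois group acting on `padicPlace ℓ ∩ L`. -/
abbrev resOloc (τ : PadicAlgCl ℓ ≃ₐ[ℚ_[ℓ]] PadicAlgCl ℓ) :
    AK (padicPlace ℓ) L ≃+* AK (padicPlace ℓ) L :=
  resO (padicPlace ℓ) L (localGaloisToGlobal ℓ τ) (preserves_localGaloisToGlobal ℓ τ)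

theorem resOloc_one : resOloc L ℓ 1 = RingEquiv.refl _ := by
  apply RingEquiv.ext
  intro x
  apply Subtype.ext
  rw [coe_resO, map_one, resL_one]
  rfl

theorem resOloc_mul_apply (σ τ : PadicAlgCl ℓ ≃ₐ[ℚ_[ℓ]] PadicAlgCl ℓ)
    (x : AK (padicPlace ℓ) L) :
    resOloc L ℓ (σ * τ) x = resOloc L ℓ σ (resOloc L ℓ τ x) := by
  apply Subtype.ext
  rw [coe_resO, map_mul, resL_mul_apply]
  rfl

theorem iota_jL_resL (τ : PadicAlgCl ℓ ≃ₐ[ℚ_[ℓ]] PadicAlgCl ℓ) (x : L) :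
    padicEmbedding ℓ (jL L (resL L (localGaloisToGlobal ℓ τ) x)) =
      τ (padicEmbedding ℓ (jL L x)) := by
  rw [jL_resL, padicEmbedding_localGaloisToGlobal]

end Padic

end Fermat.Agent.T1.HubInst98
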