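import Mathlib
import Fermat.Agent.RED.Interface4
import Fermat.Agent.X0.RootsK

/-!
# T1A brick G9-0 HUB-INST (helper98), part (3): the cyclotomic field `K1 M = ℚ(ζ_M) ⊂ ℚ̄`

`ζ_M = Fermat.Agent.X0.zetaK M` (the primitive `M`-th root of unity used by the RED/ES chapters,
e.g. the readiness hypothesis `zetaK M ∈ K`).  `K1 M` is finite and normal (Galois) over `ℚ`.
-/

set_option autoImplicit false

noncomputable section

namespace Fermat.Agent.T1.HubInst98

open Fermat.Agent.RED.Interface4 IntermediateField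

/-- `ℚ̄` is integral over `ℚ` (local instance name, `Qbar` is a `def`). -/
instance isIntegral_Qbar : Algebra.IsIntegral ℚ Qbar := by
  have : Algebra.IsAlgebraic ℚ Qbar := AlgebraicClosure.isAlgebraic ℚ
  exact Algebra.IsAlgebraic.isIntegral

variable (M : ℕ)

/-- `ℚ(ζ_M)` inside `ℚ̄`. -/
def K1 : IntermediateField ℚ Qbar := ℚ⟮Fermat.Agent.X0.zetaK M⟯

theorem zetaK_mem_K1 : Fermat.Agent.X0.zetaK M ∈ K1 M :=
  IntermediateField.mem_adjoin_simple_self ℚ _

theorem K1_le_of_zetaK_mem {K : IntermediateField ℚ Qbar} (h : Fermat.Agent.X0.zetaK M ∈ K) :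
    K1 M ≤ K := by
  rw [K1, IntermediateField.adjoin_simple_le_iff]
  exact h

theorem zetaK_mem_of_K1_le {K : IntermediateField ℚ Qbar} (h : K1 M ≤ K) :
    Fermat.Agent.X0.zetaK M ∈ K := h (zetaK_mem_K1 M)

variable [NeZero M]

instance finiteDimensional_K1 : FiniteDimensional ℚ (K1 M) :=
  IntermediateField.adjoin.finiteDimensional
    (Algebra.IsIntegral.isIntegral (R := ℚ) (Fermat.Agent.X0.zetaK M))

instance isCyclotomicExtension_K1 : IsCyclotomicExtension {M} ℚ (K1 M) :=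
  (Fermat.Agent.X0.isPrimitiveRoot_zetaK M).intermediateField_adjoin_isCyclotomicExtension ℚ

instance isGalois_K1 : IsGalois ℚ (K1 M) := IsCyclotomicExtension.isGalois {M} ℚ (K1 M)

instance normal_K1 : Normal ℚ (K1 M) := IsGalois.to_normal

/-- Every automorphism of `ℚ̄` maps `K1 M` into itself. -/
theorem map_mem_K1 (σ : Qbar ≃ₐ[ℚ] Qbar) {x : Qbar} (hx : x ∈ K1 M) : σ x ∈ K1 M := by
  have h := AlgEquiv.restrictNormal_commutes σ (K1 M) ⟨x, hx⟩
  have h2 : σ x = ((σ.restrictNormal (K1 M) ⟨x, hx⟩ : K1 M) : Qbar) := h.symm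
  rw [h2]
  exact (σ.restrictNormal (K1 M) ⟨x, hx⟩).2

end Fermat.Agent.T1.HubInst98
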